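import Mathlib.NumberTheory.ModularForms.Derivative
import Mathlib.NumberTheory.ModularForms.QExpansion
import Mathlib.Analysis.Complex.HasPrimitives
import Mathlib.Analysis.Complex.RemovableSingularity
import Mathlib.Analysis.Complex.Convex

/-!
# Antiderivatives (for `D = (2πi)⁻¹ d/dz`) of periodic holomorphic functions vanishing at `i∞`

Piece A of the S22 plan: existence (`exists_antideriv`, `exists_iterated_antideriv`) and
uniqueness (`eq_zero_of_iterate_D_eq_zero`, `eq_of_iterate_D_eq`) of `D`-antiderivatives in the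
class of holomorphic `h`-periodic functions on the upper half plane which tend to zero at `i∞`.
-/

set_option autoImplicit false

open UpperHalfPlane hiding I
open Complex Real Filter Function Metric
open scoped Manifold Topology
open Derivative

namespace Fermat.Agent.S22_helper29

/-- `qParam` is periodic. -/
theorem qParam_add_period {h : ℝ} (hh : h ≠ 0) (z : ℂ) :
    Periodic.qParam h (z + h) = Periodic.qParam h z := by
  have hh' : (h : ℂ) ≠ 0 := by exact_mod_cast hh
  simp only [Periodic.qParam]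
  have : 2 * π * I * (z + h) / h = 2 * π * I * z / h + 2 * π * I := by
    field_simp
  rw [this, Complex.exp_add, Complex.exp_two_pi_mul_I, mul_one]

/-- Functions of the form `g (↑τ)` with `g` periodic are periodic after composing with
`ofComplex`. -/
theorem periodic_comp_coe_ofComplex {g : ℂ → ℂ} {h : ℝ} (hg : ∀ z : ℂ, g (z + h) = g z) :
    Function.Periodic ((fun τ : ℍ => g (τ : ℂ)) ∘ ofComplex) h := by
  intro z
  simp only [Function.comp_apply]
  by_cases hz : 0 < z.im
  · have hz' : 0 < (z + h).im := by simpa using hz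
    rw [ofComplex_apply_of_im_pos hz, ofComplex_apply_of_im_pos hz']
    exact hg z
  · have hz0 : z.im ≤ 0 := not_lt.mp hz
    have hz' : (z + h).im ≤ 0 := by simpa using hz0
    rw [ofComplex_apply_eq_of_im_nonpos hz' hz0]

/-- The derivative of `qParam`. -/
theorem hasDerivAt_qParam (h : ℝ) (z : ℂ) :
    HasDerivAt (Periodic.qParam h) (Periodic.qParam h z * (2 * π * I / h)) z := by
  have h0 : HasDerivAt (fun x : ℂ => cexp (2 * π * I * x / h))
      (cexp (2 * π * I * z / h) * (2 * π * I / h)) z := by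
    have := (((hasDerivAt_id z).const_mul (2 * π * I)).div_const (h : ℂ)).cexp
    simpa only [id_eq, mul_one] using this
  exact h0

/-- A function on `ℍ` which is a holomorphic function of `q = qParam h τ` on the unit disc:
its `D`-derivative. -/
theorem D_comp_qParam {Ψ : ℂ → ℂ} {Ψ' : ℂ → ℂ} {h : ℝ} (hh : 0 < h)
    (hΨ : ∀ q ∈ ball (0 : ℂ) 1, HasDerivAt Ψ (Ψ' q) q) (τ : ℍ) :
    D (fun τ : ℍ => Ψ (Periodic.qParam h τ)) τ =
      Ψ' (Periodic.qParam h τ) * Periodic.qParam h τ / h := by
  have hh' : (h : ℂ) ≠ 0 := by exact_mod_cast hh.ne'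
  have hτ : 0 < (τ : ℂ).im := τ.im_pos
  have hq : Periodic.qParam h τ ∈ ball (0 : ℂ) 1 := by
    simpa using Periodic.norm_qParam_lt_one hh hτ
  have h1 : HasDerivAt (fun w : ℂ => Ψ (Periodic.qParam h w))
      (Ψ' (Periodic.qParam h τ) * (Periodic.qParam h τ * (2 * π * I / h))) τ :=
    (hΨ _ hq).comp (τ : ℂ) (hasDerivAt_qParam h τ)
  have h2 : ((fun τ : ℍ => Ψ (Periodic.qParam h τ)) ∘ ofComplex) =ᶠ[𝓝 (τ : ℂ)]
      (fun w : ℂ => Ψ (Periodic.qParam h w)) := by
    filter_upwards [isOpen_upperHalfPlaneSet.mem_nhds hτ] with w hw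
    simp only [Function.comp_apply, ofComplex_apply_of_im_pos hw]
  have h3 := (h1.congr_of_eventuallyEq h2).deriv
  simp only [normalizedDerivOfComplex]
  rw [h3]
  have h2pi : (2 * π * I : ℂ) ≠ 0 := two_pi_I_ne_zero
  field_simp

/-- A function on `ℍ` which is a holomorphic function of `q = qParam h τ` is holomorphic. -/
theorem mdiff_comp_qParam {Ψ : ℂ → ℂ} {h : ℝ} (hh : 0 < h)
    (hΨ : DifferentiableOn ℂ Ψ (ball (0 : ℂ) 1)) :
    MDiff (fun τ : ℍ => Ψ (Periodic.qParam h τ)) := by
  rw [UpperHalfPlane.mdifferentiable_iff]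
  intro z hz
  have hz' : 0 < z.im := hz
  have hq : Periodic.qParam h z ∈ ball (0 : ℂ) 1 := by
    simpa using Periodic.norm_qParam_lt_one hh hz'
  have h1 : DifferentiableAt ℂ (fun w : ℂ => Ψ (Periodic.qParam h w)) z :=
    (hΨ.differentiableAt (isOpen_ball.mem_nhds hq)).comp z (Periodic.differentiable_qParam z)
  refine (h1.congr_of_eventuallyEq ?_).differentiableWithinAt
  filter_upwards [isOpen_upperHalfPlaneSet.mem_nhds hz] with w hw
  simp only [Function.comp_apply, ofComplex_apply_of_im_pos hw]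

/-- Every holomorphic periodic function bounded at `i∞` is a holomorphic function of `q`. -/
theorem eq_cuspFunction_comp_qParam {φ : ℍ → ℂ} {h : ℝ} (hh : 0 < h)
    (hper : Function.Periodic (φ ∘ ofComplex) h) :
    φ = fun τ : ℍ => cuspFunction h φ (Periodic.qParam h τ) :=
  funext fun τ => (eq_cuspFunction τ hh.ne' hper).symm

/-- **Existence of a `D`-antiderivative**: a holomorphic `h`-periodic function on `ℍ` tending to
zero at `i∞` is `D G` for a function `G` of the same kind. -/
theorem exists_antideriv {φ : ℍ → ℂ} {h : ℝ} (hh : 0 < h) (hφ : MDiff φ)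
    (hper : Function.Periodic (φ ∘ ofComplex) h) (hzero : IsZeroAtImInfty φ) :
    ∃ G : ℍ → ℂ, MDiff G ∧ Function.Periodic (G ∘ ofComplex) h ∧ IsZeroAtImInfty G ∧
      D G = φ := by
  have hh' : (h : ℂ) ≠ 0 := by exact_mod_cast hh.ne'
  set Φ : ℂ → ℂ := cuspFunction h φ with hΦdef
  have hΦdiff : DifferentiableOn ℂ Φ (ball 0 1) :=
    differentiableOn_cuspFunction_ball hh hper hφ hzero.isBoundedAtImInfty
  have hΦ0 : Φ 0 = 0 := hzero.cuspFunction_apply_zero hh
  have hball : ball (0 : ℂ) 1 ∈ 𝓝 (0 : ℂ) := ball_mem_nhds 0 one_pos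
  have hΨ₀diff : DifferentiableOn ℂ (dslope Φ 0) (ball 0 1) :=
    (Complex.differentiableOn_dslope hball).mpr hΦdiff
  have hΦeq : ∀ q : ℂ, Φ q = q * dslope Φ 0 q := by
    intro q
    have := sub_smul_dslope Φ 0 q
    simpa [hΦ0] using this.symm
  obtain ⟨Ψ, hΨ0, hΨ⟩ :=
    ((hΨ₀diff.const_smul (h : ℂ)).isExactOn_ball).with_val_at 0 0
  have hΨdiff : DifferentiableOn ℂ Ψ (ball (0 : ℂ) 1) := fun q hq =>
    (hΨ q hq).differentiableAt.differentiableWithinAt
  refine ⟨fun τ => Ψ (Periodic.qParam h τ), mdiff_comp_qParam hh hΨdiff, ?_, ?_, ?_⟩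
  · exact periodic_comp_coe_ofComplex (g := fun z => Ψ (Periodic.qParam h z))
      (fun z => by simp only [qParam_add_period hh.ne'])
  · have hcont : ContinuousAt Ψ 0 := (hΨ 0 (mem_ball_self one_pos)).continuousAt
    have := hcont.tendsto.comp (qParam_tendsto_atImInfty hh)
    rw [hΨ0] at this
    exact this
  · funext τ
    rw [D_comp_qParam hh hΨ τ]
    have h4 : Φ (Periodic.qParam h τ) = φ τ := eq_cuspFunction τ hh.ne' hper
    rw [← h4, hΦeq]
    simp only [Pi.smul_apply, smul_eq_mul]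
    field_simp

/-- **Existence of an iterated `D`-antiderivative.** -/
theorem exists_iterated_antideriv (m : ℕ) {φ : ℍ → ℂ} {h : ℝ} (hh : 0 < h) (hφ : MDiff φ)
    (hper : Function.Periodic (φ ∘ ofComplex) h) (hzero : IsZeroAtImInfty φ) :
    ∃ G : ℍ → ℂ, MDiff G ∧ Function.Periodic (G ∘ ofComplex) h ∧ IsZeroAtImInfty G ∧
      D^[m] G = φ := by
  induction m generalizing φ with
  | zero => exact ⟨φ, hφ, hper, hzero, rfl⟩
  | succ m ih =>
    obtain ⟨G₁, hG₁, hG₁per, hG₁zero, hDG₁⟩ := exists_antideriv hh hφ hper hzero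
    obtain ⟨G, hG, hGper, hGzero, hDG⟩ := ih hG₁ hG₁per hG₁zero
    refine ⟨G, hG, hGper, hGzero, ?_⟩
    rw [Function.iterate_succ_apply', hDG, hDG₁]

/-- `D` of a holomorphic periodic function bounded at `i∞` is periodic. -/
theorem periodic_D {G : ℍ → ℂ} {h : ℝ} (hper : Function.Periodic (G ∘ ofComplex) h) :
    Function.Periodic ((D G) ∘ ofComplex) h := by
  have key : ∀ z : ℂ, deriv (G ∘ ofComplex) (z + h) = deriv (G ∘ ofComplex) z := by
    intro z
    rw [← deriv_comp_add_const (G ∘ ofComplex) (h : ℂ) z]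
    congr 1
    funext w
    exact hper w
  exact periodic_comp_coe_ofComplex (g := fun z => (2 * π * I)⁻¹ * deriv (G ∘ ofComplex) z)
    (fun z => by simp only [key])

/-- `D` of a holomorphic periodic function bounded at `i∞` tends to zero at `i∞`. -/
theorem isZeroAtImInfty_D {G : ℍ → ℂ} {h : ℝ} (hh : 0 < h) (hG : MDiff G)
    (hper : Function.Periodic (G ∘ ofComplex) h) (hbdd : IsBoundedAtImInfty G) :
    IsZeroAtImInfty (D G) := by
  set Ψ : ℂ → ℂ := cuspFunction h G with hΨdef
  have hΨdiff : DifferentiableOn ℂ Ψ (ball 0 1) :=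
    differentiableOn_cuspFunction_ball hh hper hG hbdd
  have hΨ : ∀ q ∈ ball (0 : ℂ) 1, HasDerivAt Ψ (deriv Ψ q) q := fun q hq =>
    (hΨdiff.differentiableAt (isOpen_ball.mem_nhds hq)).hasDerivAt
  have hGeq : G = fun τ : ℍ => Ψ (Periodic.qParam h τ) := eq_cuspFunction_comp_qParam hh hper
  have hDG : D G = fun τ : ℍ => deriv Ψ (Periodic.qParam h τ) * Periodic.qParam h τ / h := by
    funext τ
    conv_lhs => rw [hGeq]
    exact D_comp_qParam hh hΨ τ
  rw [hDG]
  have hcont : ContinuousAt (fun q : ℂ => deriv Ψ q * q / h) 0 := by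
    have h1 : ContinuousAt (deriv Ψ) 0 :=
      ((hΨdiff.deriv isOpen_ball).differentiableAt
        (isOpen_ball.mem_nhds (mem_ball_self one_pos))).continuousAt
    exact (h1.mul continuousAt_id).div_const _
  have := hcont.tendsto.comp (qParam_tendsto_atImInfty hh)
  simpa [IsZeroAtImInfty, ZeroAtFilter, Function.comp_def] using this

/-- A holomorphic function on `ℍ` with `D G = 0` is constant. -/
theorem eq_const_of_D_eq_zero {G : ℍ → ℂ} (hG : MDiff G) (hD : D G = 0) :
    ∀ τ τ' : ℍ, G τ = G τ' := by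
  have hdiff : DifferentiableOn ℂ (G ∘ ofComplex) upperHalfPlaneSet :=
    UpperHalfPlane.mdifferentiable_iff.mp hG
  have hderiv : Set.EqOn (deriv (G ∘ ofComplex)) 0 upperHalfPlaneSet := by
    intro z hz
    have := congrFun hD ⟨z, hz⟩
    simp only [normalizedDerivOfComplex, Pi.zero_apply] at this
    rcases mul_eq_zero.mp this with h | h
    · exact absurd (inv_eq_zero.mp h) two_pi_I_ne_zero
    · simpa using h
  intro τ τ'
  have := isOpen_upperHalfPlaneSet.is_const_of_deriv_eq_zero
    (Convex.isPreconnected (convex_halfSpace_im_gt 0)) hdiff hderiv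
    (x := (τ : ℂ)) (y := (τ' : ℂ)) τ.im_pos τ'.im_pos
  simpa [Function.comp_apply, ofComplex_apply] using this

/-- `D^[m]` preserves the class of holomorphic periodic functions vanishing at `i∞`. -/
theorem iterate_D_class (m : ℕ) {G : ℍ → ℂ} {h : ℝ} (hh : 0 < h) (hG : MDiff G)
    (hper : Function.Periodic (G ∘ ofComplex) h) (hzero : IsZeroAtImInfty G) :
    MDiff (D^[m] G) ∧ Function.Periodic ((D^[m] G) ∘ ofComplex) h ∧
      IsZeroAtImInfty (D^[m] G) := by
  induction m with
  | zero => exact ⟨hG, hper, hzero⟩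
  | succ m ih =>
    obtain ⟨h1, h2, h3⟩ := ih
    rw [Function.iterate_succ_apply']
    exact ⟨normalizedDerivOfComplex_mdifferentiable h1, periodic_D h2,
      isZeroAtImInfty_D hh h1 h2 h3.isBoundedAtImInfty⟩

/-- **Uniqueness**: a holomorphic periodic function vanishing at `i∞` with `D^[m] G = 0`
vanishes. -/
theorem eq_zero_of_iterate_D_eq_zero (m : ℕ) {G : ℍ → ℂ} {h : ℝ} (hh : 0 < h) (hG : MDiff G)
    (hper : Function.Periodic (G ∘ ofComplex) h) (hzero : IsZeroAtImInfty G)
    (hD : D^[m] G = 0) : G = 0 := by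
  induction m generalizing G with
  | zero => simpa using hD
  | succ m ih =>
    rw [Function.iterate_succ_apply] at hD
    have hDG : D G = 0 :=
      ih (normalizedDerivOfComplex_mdifferentiable hG) (periodic_D hper)
        (isZeroAtImInfty_D hh hG hper hzero.isBoundedAtImInfty) hD
    have hconst := eq_const_of_D_eq_zero hG hDG
    funext τ
    have hlim : Tendsto G atImInfty (𝓝 (G τ)) := by
      have : G = fun _ => G τ := funext fun τ' => hconst τ' τ
      rw [this]
      exact tendsto_const_nhds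
    exact tendsto_nhds_unique hlim hzero

/-- **Uniqueness of iterated antiderivatives.** -/
theorem eq_of_iterate_D_eq (m : ℕ) {G₁ G₂ : ℍ → ℂ} {h : ℝ} (hh : 0 < h)
    (hG₁ : MDiff G₁) (hG₂ : MDiff G₂)
    (hper₁ : Function.Periodic (G₁ ∘ ofComplex) h) (hper₂ : Function.Periodic (G₂ ∘ ofComplex) h)
    (hzero₁ : IsZeroAtImInfty G₁) (hzero₂ : IsZeroAtImInfty G₂)
    (hD : D^[m] G₁ = D^[m] G₂) : G₁ = G₂ := by
  have hsub : ∀ (m : ℕ) {F₁ F₂ : ℍ → ℂ}, MDiff F₁ → MDiff F₂ →
      D^[m] (F₁ - F₂) = D^[m] F₁ - D^[m] F₂ := by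
    intro m
    induction m with
    | zero => intro F₁ F₂ _ _; rfl
    | succ m ih =>
      intro F₁ F₂ hF₁ hF₂
      rw [Function.iterate_succ_apply, Function.iterate_succ_apply, Function.iterate_succ_apply,
        normalizedDerivOfComplex_sub _ _ hF₁ hF₂,
        ih (normalizedDerivOfComplex_mdifferentiable hF₁)
          (normalizedDerivOfComplex_mdifferentiable hF₂)]
  have hper : Function.Periodic ((G₁ - G₂) ∘ ofComplex) h := by
    intro z
    have h1 := hper₁ z
    have h2 := hper₂ z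
    simp only [Function.comp_apply, Pi.sub_apply] at h1 h2 ⊢
    rw [h1, h2]
  have hzero : IsZeroAtImInfty (G₁ - G₂) := by
    have h12 : Tendsto (fun τ => G₁ τ - G₂ τ) atImInfty (𝓝 (0 - 0)) :=
      Tendsto.sub hzero₁ hzero₂
    rw [sub_zero] at h12
    exact h12
  have h0 : G₁ - G₂ = 0 :=
    eq_zero_of_iterate_D_eq_zero m hh (hG₁.sub hG₂) hper hzero
      (by rw [hsub m hG₁ hG₂, hD, sub_self])
  exact sub_eq_zero.mp h0

end Fermat.Agent.S22_helper29
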